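import Fermat.Agent.AVF26.Rank
import Fermat.Agent.AVFin.Stmt
import Fermat.Agent.AVn.Stmts
import Fermat.Agent.AVb.Fd

/-!
# S26 (kb 66), block F2: the chain `δ(n,…,n) = n^(2g) δ(1,…,1)`
-/

set_option autoImplicit false

universe u

open IntermediateField

namespace Fermat.Agent.AVF26

open Fermat.Agent.AVn Fermat.Agent.AVFin

variable {K : Type u} [Field K] {g : ℕ} (A : AVar K g) {Ω : Type u} [Field Ω] [Algebra K Ω]

theorem ev_mem_fd (z : A.Pt Ω) (f : A.F) : A.ev z f ∈ A.fd z := by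
  by_cases h : ∃ φ : A.F →ₐ[K] Ω, A.map φ A.gen = z
  · obtain ⟨φ, rfl⟩ := h
    rw [A.ev_eq, A.fd_map_gen]
    exact ⟨f, rfl⟩
  · rw [AVar.ev, dif_neg h]
    exact zero_mem _

theorem rk_fd_le (z : A.Pt Ω) : rk K (A.fd z : Set Ω) ≤ g := by
  rw [rk_eq_trdeg]
  have h1 : Cardinal.toENat (Algebra.trdeg K (A.fd z)) ≤ Cardinal.toENat (g : Cardinal) :=
    Cardinal.toENat.monotone' (A.trdeg_fd_le z)
  rwa [map_natCast] at h1

theorem rk_iSup_le {ι : Type} (s : Finset ι) (E : ι → IntermediateField K Ω) (c : ℕ∞)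
    (h : ∀ i, rk K (E i : Set Ω) ≤ c) :
    rk K ((⨆ i ∈ s, E i : IntermediateField K Ω) : Set Ω) ≤ s.card * c := by
  classical
  induction s using Finset.induction_on with
  | empty =>
    simp only [Finset.notMem_empty, iSup_false, iSup_bot, Finset.card_empty, Nat.cast_zero,
      zero_mul]
    rw [← IntermediateField.adjoin_empty K Ω, rk_adjoin]
    exact (Matroid.eRk_empty _).le
  | insert a s ha ih =>
    rw [Finset.iSup_insert, Finset.card_insert_of_notMem ha, Nat.cast_add, Nat.cast_one, add_mul,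
      one_mul, add_comm]
    exact (rk_sup_le _ _).trans (add_le_add (h a) ih)

theorem rk_adjoin_simple_le (y : Ω) : rk K ((K⟮y⟯ : IntermediateField K Ω) : Set Ω) ≤ 1 := by
  rw [rk_adjoin]
  exact (Matroid.eRk_le_encard _ _).trans_eq (Set.encard_singleton y)

section

variable (x : A.Pt Ω) (a : Fin g → A.Pt Ω) (f : Fin g → A.F) (n : Fin g → ℤ) (i : Fin g)

/-- the field generated by the `a_j`, `j ≠ i` -/
noncomputable def Bi : IntermediateField K Ω := ⨆ j ∈ Finset.univ.erase i, A.fd (a j)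

/-- the constant field of the `i`-th height -/
noncomputable def k0 : IntermediateField K Ω :=
  Bi A a i ⊔ ⨆ j ∈ Finset.univ.erase i, K⟮A.ev (n j • x - a j) (f j)⟯

/-- the field `K(x, a_j : j ≠ i)` -/
noncomputable def E0 : IntermediateField K Ω := Bi A a i ⊔ A.fd x

variable {ι : Type} [Fintype ι] [DecidableEq ι]

theorem iSup_erase (E : ι → IntermediateField K Ω) (i : ι) :
    (⨆ j ∈ Finset.univ.erase i, E j) ⊔ E i = ⨆ j, E j := by
  rw [sup_comm, ← Finset.iSup_insert i (Finset.univ.erase i) E,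
    Finset.insert_erase (Finset.mem_univ i)]
  simp

theorem Bi_sup : Bi A a i ⊔ A.fd (a i) = BB A a := iSup_erase (fun j => A.fd (a j)) i

theorem E0_sup : E0 A x a i ⊔ A.fd (a i) = BB A a ⊔ A.fd x := by
  rw [E0, sup_right_comm, Bi_sup]

theorem k0_sup : k0 A x a f n i ⊔ A.fd (a i) ⊔ K⟮A.ev (n i • x - a i) (f i)⟯ =
    DD A x a f n := by
  rw [k0, DD, ← Bi_sup A a i, ← iSup_erase (fun j => K⟮A.ev (n j • x - a j) (f j)⟯) i]
  simp only [sup_assoc, sup_left_comm, sup_comm]

theorem delta_eq_ht : delta A x a f n = A.ht (k0 A x a f n i) (E0 A x a i) (a i) (f i)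
    (n i • x) := by
  rw [delta, AVar.ht, k0_sup, E0_sup]

theorem k0_update (m : ℤ) : k0 A x a f (Function.update n i m) i = k0 A x a f n i := by
  rw [k0, k0]
  refine congrArg _ (iSup_congr fun j => iSup_congr fun hj => ?_)
  rw [Function.update_of_ne (Finset.ne_of_mem_erase hj)]

theorem k0_le_E0 : k0 A x a f n i ≤ E0 A x a i := by
  refine sup_le le_sup_left (iSup₂_le fun j hj => ?_)
  rw [IntermediateField.adjoin_simple_le_iff]
  refine (?_ : A.fd (n j • x - a j) ≤ E0 A x a i) (ev_mem_fd A _ _)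
  refine A.fd_sub_le' ((A.fd_zsmul_le _ _).trans ?_) ?_
  · exact le_sup_right
  · have h1 : A.fd (a j) ≤ Bi A a i :=
      le_iSup₂_of_le (f := fun j (_ : j ∈ Finset.univ.erase i) => A.fd (a j)) j hj le_rfl
    exact h1.trans le_sup_left

theorem DD_le : DD A x a f n ≤ BB A a ⊔ A.fd x := by
  refine sup_le le_sup_left (iSup_le fun j => ?_)
  rw [IntermediateField.adjoin_simple_le_iff]
  refine (?_ : A.fd (n j • x - a j) ≤ BB A a ⊔ A.fd x) (ev_mem_fd A _ _)
  refine A.fd_sub_le' ((A.fd_zsmul_le _ _).trans le_sup_right) ?_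
  exact (le_iSup (fun j => A.fd (a j)) j).trans le_sup_left

theorem rk_Bi_le : rk K (Bi A a i : Set Ω) ≤ ((g - 1 : ℕ) : ℕ∞) * g := by
  refine (rk_iSup_le _ _ g fun j => rk_fd_le A (a j)).trans_eq ?_
  rw [Finset.card_erase_of_mem (Finset.mem_univ i), Finset.card_univ, Fintype.card_fin]

variable (hi : Indep A x a)

include hi in
theorem rk_top : rk K ((BB A a ⊔ A.fd x : IntermediateField K Ω) : Set Ω) =
    ((g * (g + 1) : ℕ) : ℕ∞) := by
  rw [rk_eq_trdeg, hi]
  rw [← Nat.cast_one, ← Nat.cast_add, ← Nat.cast_mul, map_natCast]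

include hi in
theorem rk_E0 : rk K (E0 A x a i : Set Ω) = ((g * g : ℕ) : ℕ∞) := by
  have hg : 1 ≤ g := i.pos
  refine le_antisymm ?_ ?_
  · refine (rk_sup_le _ _).trans ((add_le_add (rk_Bi_le A a i) (rk_fd_le A x)).trans_eq ?_)
    rw [← Nat.cast_mul, ← Nat.cast_add]
    congr 1
    obtain ⟨m, rfl⟩ : ∃ m, g = m + 1 := ⟨g - 1, by omega⟩
    simp
    ring
  · have h1 : ((g * (g + 1) : ℕ) : ℕ∞) ≤ rk K (E0 A x a i : Set Ω) + g := by
      rw [← rk_top A x a hi, ← E0_sup A x a i]
      exact (rk_sup_le _ _).trans (add_le_add le_rfl (rk_fd_le A (a i)))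
    rw [mul_add, mul_one, Nat.cast_add] at h1
    exact (ENat.add_le_add_iff_right (ENat.natCast_ne_top g)).1 h1

include hi in
theorem rk_k0 (hd : delta A x a f n ≠ 0) :
    rk K (k0 A x a f n i : Set Ω) + 1 = ((g * g : ℕ) : ℕ∞) := by
  have hg : 1 ≤ g := i.pos
  refine le_antisymm ?_ ?_
  · have h1 : rk K (k0 A x a f n i : Set Ω) ≤ ((g - 1 : ℕ) : ℕ∞) * g + ((g - 1 : ℕ) : ℕ∞) * 1 := by
      refine (rk_sup_le _ _).trans (add_le_add (rk_Bi_le A a i) ?_)
      refine (rk_iSup_le _ _ 1 fun j => rk_adjoin_simple_le _).trans_eq ?_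
      rw [Finset.card_erase_of_mem (Finset.mem_univ i), Finset.card_univ, Fintype.card_fin]
    refine (add_le_add h1 le_rfl).trans_eq ?_
    obtain ⟨m, rfl⟩ : ∃ m, g = m + 1 := ⟨g - 1, by omega⟩
    simp only [Nat.add_sub_cancel]
    push_cast
    ring
  · have halg : ∀ b ∈ BB A a ⊔ A.fd x, IsAlgebraic (DD A x a f n) b := by
      intro b hb
      have hle := DD_le A x a f n
      have h2 : Module.finrank (DD A x a f n) (extendScalars hle) ≠ 0 := by
        rw [← relfinrank_eq_finrank_of_le hle]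
        exact hd
      have h3 : Module.Finite (DD A x a f n) (extendScalars hle) :=
        Module.finite_of_finrank_pos (Nat.pos_of_ne_zero h2)
      have h4 := (Algebra.IsAlgebraic.of_finite (DD A x a f n)
        (extendScalars hle)).isAlgebraic ⟨b, hb⟩
      exact h4.algHom (IsScalarTower.toAlgHom (DD A x a f n) (extendScalars hle) Ω)
    have h5 := rk_eq_of_isAlgebraic (DD_le A x a f n) halg
    rw [rk_top A x a hi, ← k0_sup A x a f n i] at h5
    have h6 : ((g * (g + 1) : ℕ) : ℕ∞) ≤ rk K (k0 A x a f n i : Set Ω) + g + 1 := by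
      rw [h5]
      refine (rk_sup_le _ _).trans (add_le_add ((rk_sup_le _ _).trans
        (add_le_add le_rfl (rk_fd_le A (a i)))) (rk_adjoin_simple_le _))
    rw [mul_add, mul_one, Nat.cast_add, add_right_comm] at h6
    exact (ENat.add_le_add_iff_right (ENat.natCast_ne_top g)).1 h6

include hi in
theorem trdeg_eq_one (hd : delta A x a f n ≠ 0) :
    Algebra.trdeg (k0 A x a f n i) (extendScalars (k0_le_E0 A x a f n i)) = 1 := by
  have h1 := rk_eq_add_trdeg (k0_le_E0 A x a f n i)
  rw [rk_E0 A x a i hi, ← rk_k0 A x a f n i hi hd] at h1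
  have hfin : rk K (k0 A x a f n i : Set Ω) ≠ ⊤ := by
    refine ne_top_of_le_ne_top (ENat.natCast_ne_top (g * g)) ?_
    rw [← rk_k0 A x a f n i hi hd]
    exact le_self_add
  have h2 := ENat.add_right_injective_of_ne_top hfin h1
  exact (Cardinal.toENat_eq_one.1 h2.symm)

theorem exists_finset_E0 : ∃ s : Finset Ω, E0 A x a i =
    k0 A x a f n i ⊔ IntermediateField.adjoin K (s : Set Ω) := by
  have h1 : (E0 A x a i).FG := by
    refine fg_sup ?_ (A.fd_fg x)
    exact fg_iSup fun j => fg_iSup fun _ => A.fd_fg (a j)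
  obtain ⟨s, hs⟩ := h1
  exact ⟨s, by rw [hs]; exact (sup_eq_right.2 (k0_le_E0 A x a f n i)).symm⟩

include hi in
/-- one step of the chain -/
theorem delta_update (hE : A.QuadStmt) (hGen : A.Gen (E0 A x a i) (a i)) (hf : A.Even (f i))
    (hd : delta A x a f n ≠ 0) (hn : n i = 1) (m : ℕ) :
    delta A x a f (Function.update n i (m : ℤ)) = m ^ 2 * delta A x a f n := by
  rw [delta_eq_ht A x a f (Function.update n i (m : ℤ)) i, delta_eq_ht A x a f n i, k0_update,
    Function.update_self, hn, one_zsmul, natCast_zsmul]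
  exact hE Ω _ _ (k0_le_E0 A x a f n i) (exists_finset_E0 A x a f n i)
    (trdeg_eq_one A x a f n i hi hd) (f i) hf x (a i) le_sup_right hGen m

include hi in
/-- the chain -/
theorem delta_finset (hE : A.QuadStmt) (hGen : ∀ i, A.Gen (E0 A x a i) (a i))
    (hf : ∀ i, A.Even (f i)) (hd : delta A x a f (fun _ => 1) ≠ 0) (m : ℕ) (hm : m ≠ 0)
    (s : Finset (Fin g)) :
    delta A x a f (fun i => if i ∈ s then (m : ℤ) else 1) =
      m ^ (2 * s.card) * delta A x a f (fun _ => 1) := by
  classical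
  induction s using Finset.induction_on with
  | empty => simp
  | insert i s his ih =>
    have h1 : (fun j => if j ∈ insert i s then (m : ℤ) else 1) =
        Function.update (fun j => if j ∈ s then (m : ℤ) else 1) i (m : ℤ) := by
      funext j
      by_cases hj : j = i
      · subst hj
        rw [Function.update_self, if_pos (Finset.mem_insert_self _ _)]
      · rw [Function.update_of_ne hj]
        simp [Finset.mem_insert, hj]
    have h2 : delta A x a f (fun i => if i ∈ s then (m : ℤ) else 1) ≠ 0 := by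
      rw [ih]
      exact mul_ne_zero (pow_ne_zero _ hm) hd
    rw [h1, delta_update A x a f _ i hi hE (hGen i) (hf i) h2 (if_neg his) m, ih,
      Finset.card_insert_of_notMem his]
    ring

include hi in
/-- **block F2** -/
theorem delta_const (hE : A.QuadStmt) (hGen : ∀ i, A.Gen (E0 A x a i) (a i))
    (hf : ∀ i, A.Even (f i)) (hd : delta A x a f (fun _ => 1) ≠ 0) (m : ℕ) (hm : m ≠ 0) :
    delta A x a f (fun _ => (m : ℤ)) = m ^ (2 * g) * delta A x a f (fun _ => 1) := by
  have h1 := delta_finset A x a f hi hE hGen hf hd m hm Finset.univ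
  simpa using h1

end

end Fermat.Agent.AVF26
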