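import Fermat.Agent.AVF26.Chain
import Fermat.Agent.AVb.Free

/-!
# Generic points via ranks, and block F2 with `Indep` only
-/

set_option autoImplicit false

universe u

open IntermediateField

namespace Fermat.Agent.AVF26

open Fermat.Agent.AVn Fermat.Agent.AVFin

variable {K : Type u} [Field K] {g : ℕ} (A : AVar K g) {Ω : Type u} [Field Ω] [Algebra K Ω]

theorem linearDisjoint_congr {k X Y : IntermediateField K Ω} (h : X = Y)
    (hd : k.LinearDisjoint X) : k.LinearDisjoint Y := by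
  subst h
  exact hd

theorem gen_of_rk [IsAlgClosed K] {k : IntermediateField K Ω} {z : A.Pt Ω}
    (hk : rk K (k : Set Ω) ≠ ⊤)
    (h : rk K ((k ⊔ A.fd z : IntermediateField K Ω) : Set Ω) = rk K (k : Set Ω) + g) :
    A.Gen k z := by
  have h1 : rk K (A.fd z : Set Ω) = g := by
    refine le_antisymm (rk_fd_le A z) ?_
    have h2 := rk_sup_le k (A.fd z)
    rw [h] at h2
    exact (ENat.add_le_add_iff_left hk).1 h2
  have h3 : Algebra.trdeg K (A.fd z) = g := by
    rw [rk_eq_trdeg] at h1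
    exact Cardinal.toENat_eq_natCast.1 h1
  obtain ⟨φ, hφ⟩ := A.exists_ev z h3
  refine ⟨φ, hφ, ?_⟩
  have h4 : A.fd z = φ.fieldRange := by rw [← hφ, A.fd_map_gen]
  refine linearDisjoint_congr h4 ?_
  refine AVb.linearDisjoint_of_trdeg_le ?_ ?_
  · rw [h3]
    exact Cardinal.natCast_lt_aleph0
  · rw [h3]
    have h5 := rk_eq_add_trdeg (le_sup_left : k ≤ k ⊔ A.fd z)
    rw [h] at h5
    have h6 := ENat.add_right_injective_of_ne_top hk h5
    exact (Cardinal.toENat_eq_natCast.1 h6.symm).ge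

theorem rk_sup_of_gen {k : IntermediateField K Ω} {z : A.Pt Ω} (h : A.Gen k z) :
    rk K ((k ⊔ A.fd z : IntermediateField K Ω) : Set Ω) = rk K (k : Set Ω) + g := by
  obtain ⟨φ, hφ, hd⟩ := h
  have h4 : A.fd z = φ.fieldRange := by rw [← hφ, A.fd_map_gen]
  rw [h4, rk_sup_of_linearDisjoint hd, rk_eq_trdeg φ.fieldRange]
  congr 1
  have h5 : Algebra.trdeg K φ.fieldRange = g := by
    rw [← A.trdeg_F]
    exact ((AlgEquiv.ofInjectiveField φ).trdeg_eq).symm
  rw [h5, map_natCast]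

variable (x : A.Pt Ω) (a : Fin g → A.Pt Ω) (f : Fin g → A.F)

theorem gen_of_indep [IsAlgClosed K] (hi : Indep A x a) (i : Fin g) :
    A.Gen (E0 A x a i) (a i) := by
  refine gen_of_rk A ?_ ?_
  · rw [rk_E0 A x a i hi]
    exact ENat.natCast_ne_top _
  · rw [E0_sup, rk_top A x a hi, rk_E0 A x a i hi, mul_add, mul_one, Nat.cast_add]

/-- **block F2** -/
theorem f2Stmt [IsAlgClosed K] (hE : A.QuadStmt) (Ω : Type u) [Field Ω] [Algebra K Ω] :
    F2Stmt A Ω := fun x a hi f hf hd m hm =>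
  delta_const A x a f hi hE (gen_of_indep A x a hi) hf hd m hm.ne'

end Fermat.Agent.AVF26
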