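import Mathlib

/-!
# Rank calculus for intermediate fields (via the algebraic matroid)
-/

set_option autoImplicit false

universe u v

open IntermediateField

namespace Fermat.Agent.AVF26

variable (K : Type v) {Ω : Type u} [Field K] [Field Ω] [Algebra K Ω]

/-- the transcendence degree over `K` of a subset of `Ω`, with values in `ℕ∞` -/
noncomputable def rk (S : Set Ω) : ℕ∞ := (AlgebraicIndependent.matroid K Ω).eRk S

variable {K}

theorem rk_mono {S T : Set Ω} (h : S ⊆ T) : rk K S ≤ rk K T :=
  (AlgebraicIndependent.matroid K Ω).eRk_mono h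

theorem mem_closure_iff {S : Set Ω} {a : Ω} :
    a ∈ (AlgebraicIndependent.matroid K Ω).closure S ↔
      IsAlgebraic (IntermediateField.adjoin K S) a := by
  rw [AlgebraicIndependent.matroid_closure_eq, IntermediateField.isAlgebraic_adjoin_iff,
    SetLike.mem_coe, Subalgebra.mem_algebraicClosure]

theorem rk_adjoin (S : Set Ω) : rk K (IntermediateField.adjoin K S : Set Ω) = rk K S := by
  refine le_antisymm ?_ (rk_mono (IntermediateField.subset_adjoin K S))
  rw [rk, rk, ← Matroid.eRk_closure_eq _ S]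
  refine Matroid.eRk_mono _ fun a ha => ?_
  rw [mem_closure_iff]
  exact isAlgebraic_algebraMap (⟨a, ha⟩ : IntermediateField.adjoin K S)

theorem mem_closure_iff' {E : IntermediateField K Ω} {a : Ω} :
    a ∈ (AlgebraicIndependent.matroid K Ω).closure (E : Set Ω) ↔ IsAlgebraic E a := by
  rw [mem_closure_iff, IntermediateField.adjoin_self]

theorem rk_sup (A B : IntermediateField K Ω) :
    rk K ((A ⊔ B : IntermediateField K Ω) : Set Ω) = rk K ((A : Set Ω) ∪ B) := by
  rw [← rk_adjoin ((A : Set Ω) ∪ B)]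
  refine congrArg (fun E : IntermediateField K Ω => rk K (E : Set Ω)) ?_
  refine le_antisymm (sup_le ?_ ?_) (IntermediateField.adjoin_le_iff.2 (Set.union_subset ?_ ?_))
  · exact fun x hx => IntermediateField.subset_adjoin _ _ (Or.inl hx)
  · exact fun x hx => IntermediateField.subset_adjoin _ _ (Or.inr hx)
  · exact fun x hx => (le_sup_left : A ≤ A ⊔ B) hx
  · exact fun x hx => (le_sup_right : B ≤ A ⊔ B) hx

theorem rk_le (A B : IntermediateField K Ω) (h : A ≤ B) : rk K (A : Set Ω) ≤ rk K (B : Set Ω) :=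
  rk_mono h

/-- submodularity -/
theorem rk_inf_add_rk_sup_le (A B : IntermediateField K Ω) :
    rk K ((A ⊓ B : IntermediateField K Ω) : Set Ω) + rk K ((A ⊔ B : IntermediateField K Ω) : Set Ω)
      ≤ rk K (A : Set Ω) + rk K (B : Set Ω) := by
  rw [rk_sup]
  exact Matroid.eRk_inter_add_eRk_union_le _ _ _

theorem rk_sup_le (A B : IntermediateField K Ω) :
    rk K ((A ⊔ B : IntermediateField K Ω) : Set Ω) ≤ rk K (A : Set Ω) + rk K (B : Set Ω) := by
  rw [rk_sup]
  exact Matroid.eRk_union_le_eRk_add_eRk _ _ _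

theorem rk_sup_adjoin_le (A : IntermediateField K Ω) (S : Set Ω) :
    rk K ((A ⊔ adjoin K S : IntermediateField K Ω) : Set Ω) ≤ rk K (A : Set Ω) + S.encard := by
  refine (rk_sup_le _ _).trans (add_le_add le_rfl ?_)
  rw [rk_adjoin]
  exact Matroid.eRk_le_encard _ _

theorem rk_eq_of_isAlgebraic {A B : IntermediateField K Ω} (h : A ≤ B)
    (halg : ∀ b ∈ B, IsAlgebraic A b) : rk K (B : Set Ω) = rk K (A : Set Ω) := by
  refine le_antisymm ?_ (rk_le _ _ h)
  rw [rk, rk, ← Matroid.eRk_closure_eq _ (A : Set Ω)]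
  exact Matroid.eRk_mono _ fun b hb => mem_closure_iff'.2 (halg b hb)

theorem isAlgebraic_of_rk_le {A B : IntermediateField K Ω} (h : A ≤ B)
    (hfin : rk K (B : Set Ω) ≠ ⊤)
    (hrk : rk K (B : Set Ω) ≤ rk K (A : Set Ω)) : ∀ b ∈ B, IsAlgebraic A b := by
  intro b hb
  rw [← mem_closure_iff']
  have h1 : (AlgebraicIndependent.matroid K Ω).IsRkFinite (A : Set Ω) :=
    Matroid.eRk_ne_top_iff.1 (ne_top_of_le_ne_top hfin (rk_le _ _ h))
  rw [h1.closure_eq_closure_of_subset_of_eRk_ge_eRk (Y := (B : Set Ω)) h hrk, mem_closure_iff']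
  exact isAlgebraic_algebraMap (⟨b, hb⟩ : B)

theorem isAlgebraic_image {E : IntermediateField K Ω} {s : Set E} {a : E}
    (h : IsAlgebraic (Algebra.adjoin K s) a) :
    IsAlgebraic (Algebra.adjoin K ((fun x : E => (x : Ω)) '' s)) (a : Ω) := by
  have hmem : ∀ x : Algebra.adjoin K s, ((x : E) : Ω) ∈
      Algebra.adjoin K ((fun x : E => (x : Ω)) '' s) := by
    intro x
    have h1 : (Algebra.adjoin K s).map E.val = Algebra.adjoin K ((fun x : E => (x : Ω)) '' s) :=
      AlgHom.map_adjoin _ _
    rw [← h1]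
    exact ⟨x, x.2, rfl⟩
  let f : Algebra.adjoin K s →ₐ[K] Algebra.adjoin K ((fun x : E => (x : Ω)) '' s) :=
    (E.val.comp (Algebra.adjoin K s).val).codRestrict _ hmem
  have hf : Function.Injective f := by
    intro x y hxy
    have h2 : ((x : E) : Ω) = ((y : E) : Ω) :=
      congrArg (fun z : Algebra.adjoin K ((fun x : E => (x : Ω)) '' s) => (z : Ω)) hxy
    exact Subtype.ext (Subtype.ext h2)
  exact h.ringHom_of_comp_eq f.toRingHom (E.val : E →+* Ω) hf (RingHom.ext fun x => rfl)

/-- the rank of an intermediate field is its transcendence degree -/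
theorem rk_eq_trdeg (E : IntermediateField K Ω) :
    rk K (E : Set Ω) = Cardinal.toENat (Algebra.trdeg K E) := by
  obtain ⟨s, hs⟩ := exists_isTranscendenceBasis K E
  rw [← hs.cardinalMk_eq_trdeg]
  have h1 : (AlgebraicIndependent.matroid K Ω).IsBasis ((fun x : E => (x : Ω)) '' s)
      (E : Set Ω) := by
    rw [AlgebraicIndependent.matroid_isBasis_iff]
    refine ⟨?_, ?_, ?_⟩
    · have := hs.1.map' (f := E.val) E.val.injective
      have h2 := (algebraicIndependent_subtype_range (R := K) (f := fun x : s => (x.1 : Ω))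
        (fun a b hab => Subtype.ext (Subtype.ext hab))).2 this
      rw [show (fun x : E => (x : Ω)) '' s = Set.range (fun x : s => (x.1 : Ω)) from by
        ext a; simp]
      exact h2
    · rintro _ ⟨a, _, rfl⟩
      exact a.2
    · intro a ha
      have h2 := hs.isAlgebraic
      rw [Subtype.range_coe] at h2
      exact isAlgebraic_image (h2.isAlgebraic ⟨a, ha⟩)
  rw [rk, h1.eRk_eq_encard, Function.Injective.encard_image Subtype.val_injective]
  rfl

theorem rk_eq_add_trdeg {k E : IntermediateField K Ω} (h : k ≤ E) :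
    rk K (E : Set Ω) =
      rk K (k : Set Ω) + Cardinal.toENat (Algebra.trdeg k (extendScalars h)) := by
  have : FaithfulSMul k (extendScalars h) :=
    (faithfulSMul_iff_algebraMap_injective _ _).2 (algebraMap k (extendScalars h)).injective
  rw [rk_eq_trdeg, rk_eq_trdeg, ← map_add]
  refine congrArg _ ?_
  exact (_root_.trdeg_add_eq K k (A := extendScalars h)).symm

theorem algebraicIndependent_of_linearDisjoint {k L : IntermediateField K Ω}
    (h : k.LinearDisjoint L) {ι : Type*} {x : ι → L} (hx : AlgebraicIndependent K x) :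
    AlgebraicIndependent k (fun i => (x i : Ω)) := by
  have h1 : LinearIndependent K (fun m : ι →₀ ℕ =>
      MvPolynomial.aeval x (MvPolynomial.monomial m (1 : K))) := by
    have := (MvPolynomial.basisMonomials ι K).linearIndependent.map'
      (MvPolynomial.aeval x).toLinearMap (LinearMap.ker_eq_bot.2 hx)
    simpa [Function.comp_def] using this
  have h2 := h.linearIndependent_right' h1
  intro p q hpq
  have h3 : ∀ r : MvPolynomial ι k, MvPolynomial.aeval (fun i => (x i : Ω)) r = 0 → r = 0 := by
    intro r hr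
    rw [linearIndependent_iff'] at h2
    refine MvPolynomial.ext _ _ fun m => ?_
    rw [MvPolynomial.coeff_zero]
    by_cases hm : m ∈ r.support
    · refine h2 r.support (fun m => r.coeff m) ?_ m hm
      rw [MvPolynomial.aeval_def, MvPolynomial.eval₂_eq] at hr
      rw [← hr]
      refine Finset.sum_congr rfl fun m _ => ?_
      rw [Algebra.smul_def]
      congr 1
      rw [Function.comp_apply, MvPolynomial.aeval_monomial, map_one, one_mul, Finsupp.prod,
        map_prod]
      exact Finset.prod_congr rfl fun i _ => map_pow _ _ _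
    · exact MvPolynomial.notMem_support_iff.1 hm
  exact sub_eq_zero.1 (h3 (p - q) (by rw [map_sub]; exact sub_eq_zero.2 hpq))

/-- linearly disjoint extensions: ranks add -/
theorem rk_sup_of_linearDisjoint {k L : IntermediateField K Ω} (h : k.LinearDisjoint L) :
    rk K ((k ⊔ L : IntermediateField K Ω) : Set Ω) = rk K (k : Set Ω) + rk K (L : Set Ω) := by
  refine le_antisymm (rk_sup_le _ _) ?_
  obtain ⟨s, hs⟩ := exists_isTranscendenceBasis K L
  have h1 := algebraicIndependent_of_linearDisjoint h hs.1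
  rw [rk_eq_add_trdeg (le_sup_left : k ≤ k ⊔ L)]
  refine add_le_add le_rfl ?_
  rw [rk_eq_trdeg, ← hs.cardinalMk_eq_trdeg]
  refine Cardinal.toENat.monotone' ?_
  have h2 : AlgebraicIndependent k (fun i : s =>
      (⟨(i.1 : Ω), (le_sup_right : L ≤ k ⊔ L) i.1.2⟩ : extendScalars (le_sup_left : k ≤ k ⊔ L))) := by
    refine AlgebraicIndependent.of_comp (IsScalarTower.toAlgHom k
      (extendScalars (le_sup_left : k ≤ k ⊔ L)) Ω) ?_
    exact h1
  exact h2.cardinalMk_le_trdeg

end Fermat.Agent.AVF26
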